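import Fermat.Agent.S14.Thaine.Defs
import Fermat.Agent.S14.Thaine.ZetaBounds.Pole
import Fermat.Agent.S14.Thaine.ZetaBounds.Euler
import Fermat.Agent.S14.Thaine.ZetaBounds.Z4
import Fermat.Agent.S14.Thaine.ZetaBounds.Z5

/-!
# Route T interface `ZetaBounds` (statements FROZEN by helper13; bodies owned by helper20)

Euler products over prime ideals and the "soft" consequences of the simple pole of the
Dedekind zeta function (Mathlib: `NumberField.tendsto_sub_one_mul_dedekindZeta_nhdsGT`).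
`K` is an arbitrary number field; all `s` are real.
-/

set_option autoImplicit false

namespace Fermat.Agent.S14.Thaine

open NumberField
open scoped nonZeroDivisors

/-- (Z1) `∑_I N(I)^(-s)` over nonzero integral ideals converges for `s > 1`. -/
theorem summable_absNorm_rpow (K : Type*) [Field K] [NumberField K] {s : ℝ} (hs : 1 < s) :
    Summable (fun I : (Ideal (𝓞 K))⁰ => ((Ideal.absNorm (I : Ideal (𝓞 K)) : ℝ)) ^ (-s)) := by
  exact ZetaBounds.summable_absNorm_rpow K hs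

/-- (Z2) `ζ_K(s) ≤ c / (s - 1)` for `1 < s ≤ 2`. -/
theorem tsum_absNorm_rpow_le (K : Type*) [Field K] [NumberField K] :
    ∃ c : ℝ, ∀ s : ℝ, 1 < s → s ≤ 2 →
      ∑' I : (Ideal (𝓞 K))⁰, ((Ideal.absNorm (I : Ideal (𝓞 K)) : ℝ)) ^ (-s) ≤ c / (s - 1) := by
  exact ZetaBounds.tsum_le K

/-- (Z3) Euler product for a completely multiplicative function on nonzero integral ideals. -/
theorem ideal_eulerProduct_hasProd (K : Type*) [Field K] [NumberField K]
    (f : (Ideal (𝓞 K))⁰ →* ℂ) (hsum : Summable (fun I : (Ideal (𝓞 K))⁰ => ‖f I‖)) :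
    HasProd (fun v : IsDedekindDomain.HeightOneSpectrum (𝓞 K) => (1 - f (primeNZD K v))⁻¹)
      (∑' I : (Ideal (𝓞 K))⁰, f I) := by
  exact ZetaBounds.ideal_eulerProduct_hasProd K f hsum

/-- (Z4) The primes of degree one (prime norm) not containing `n` carry the whole pole:
for every `s ∈ (1,2]` there is a finite set `T` of such primes with
`∑_{P ∈ T} N(P)^(-s) ≥ log (1/(s-1)) - C`. -/
theorem exists_finset_degreeOne_primes_sum_ge (K : Type*) [Field K] [NumberField K]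
    (n : ℕ) (hn : n ≠ 0) :
    ∃ C : ℝ, ∀ s : ℝ, 1 < s → s ≤ 2 →
      ∃ T : Finset (Ideal (𝓞 K)),
        (∀ P ∈ T, P.IsPrime ∧ (Ideal.absNorm P).Prime ∧ ((n : ℕ) : 𝓞 K) ∉ P) ∧
        Real.log (1 / (s - 1)) - C ≤ ∑ P ∈ T, ((Ideal.absNorm P : ℝ)) ^ (-s) := by
  exact ZetaBounds.degreeOne_primes_sum_ge K n hn

/-- (Z5) Kummer splitting + simple pole of `ζ_{K(u^{1/p})}`: the degree-one primes `P ∤ p` of `K`
modulo which `u` IS a `p`-th power have "density at most `1/p`". -/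
theorem kummer_split_primes_sum_le {p : ℕ} [Fact p.Prime] (K : Type*) [Field K] [NumberField K]
    (ζ : K) (hζ : IsPrimitiveRoot ζ p) (u : 𝓞 K) (hu : ¬ ∃ x : K, (u : K) = x ^ p) :
    ∃ C : ℝ, ∀ s : ℝ, 1 < s → s ≤ 2 →
      ∀ T : Finset (Ideal (𝓞 K)),
        (∀ P ∈ T, P.IsPrime ∧ (Ideal.absNorm P).Prime ∧ ((p : ℕ) : 𝓞 K) ∉ P ∧
          ∃ x : 𝓞 K, x ^ p - u ∈ P) →
        (p : ℝ) * ∑ P ∈ T, ((Ideal.absNorm P : ℝ)) ^ (-s) ≤ Real.log (1 / (s - 1)) + C := by
  exact ZetaBounds.kummer_split_primes_sum_le K ζ hζ u hu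

end Fermat.Agent.S14.Thaine
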