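import Fermat.Agent.S14.Thaine.Defs
import Fermat.Agent.S14.Thaine.ClassZetaA.Main

/-!
# Route T interface `ClassZeta` (statements FROZEN by helper13; bodies owned by helper10 / helper11)

Partial zeta functions of ideal classes: summability for `s > 1` and the key quantitative fact
that the difference of two partial zeta functions stays bounded as `s → 1⁺`
(equivalently: the number of integral ideals of norm `≤ x` in a class is `κ x + O(x^(1-δ))`
with `κ` independent of the class).  `K` is an arbitrary number field.

Bodies: block `ClassZetaA` (helper11), see `Fermat/Agent/S14/Thaine/ClassZetaA/Main.lean`.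
-/

set_option autoImplicit false

namespace Fermat.Agent.S14.Thaine

open NumberField
open scoped nonZeroDivisors

theorem classZeta_summable (K : Type*) [Field K] [NumberField K] (C : ClassGroup (𝓞 K))
    {s : ℝ} (hs : 1 < s) :
    Summable (fun I : {I : (Ideal (𝓞 K))⁰ // ClassGroup.mk0 I = C} =>
      ((Ideal.absNorm (I.1 : Ideal (𝓞 K)) : ℝ)) ^ (-s)) :=
  ClassZetaA.classZeta_summable' K C hs

theorem classZeta_sub_bounded (K : Type*) [Field K] [NumberField K] (C C' : ClassGroup (𝓞 K)) :
    ∃ M : ℝ, ∀ s : ℝ, 1 < s → s ≤ 2 → |classZeta K C s - classZeta K C' s| ≤ M :=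
  ClassZetaA.classZeta_sub_bounded' K C C'

end Fermat.Agent.S14.Thaine
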