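import Fermat.Agent.S14.Thaine.Iface.ClassZeta
import Fermat.Agent.S14.Thaine.Iface.ZetaBounds
import Fermat.Agent.S14.Thaine.Gen.LSeries

/-!
# Route T interface `Generation` (statement FROZEN by helper13; body owned by helper9)

The good primes for `u` generate the class group modulo `p`-th powers.
`K` is an arbitrary number field containing a primitive `p`-th root of unity, `p ≥ 3`.
-/

set_option autoImplicit false

namespace Fermat.Agent.S14.Thaine

open NumberField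
open scoped nonZeroDivisors

theorem goodPrimes_generate {p : ℕ} [Fact p.Prime] (hp3 : 3 ≤ p)
    (K : Type*) [Field K] [NumberField K] (ζ : K) (hζ : IsPrimitiveRoot ζ p)
    (u : 𝓞 K) (hu : ¬ ∃ x : K, (u : K) = x ^ p) :
    Subgroup.closure {c : ClassGroup (𝓞 K) |
        ∃ P : (Ideal (𝓞 K))⁰, IsGoodPrime K p u (P : Ideal (𝓞 K)) ∧ c = ClassGroup.mk0 P} ⊔
      (powMonoidHom p : ClassGroup (𝓞 K) →* ClassGroup (𝓞 K)).range = ⊤ := by
  classical
  have hp : p.Prime := Fact.out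
  by_contra hne
  obtain ⟨θ, hθ1, hθp, hθH⟩ := Gen.exists_char_of_ne_top p _ hne le_sup_right
  have hgood : ∀ P : (Ideal (𝓞 K))⁰, IsGoodPrime K p u (P : Ideal (𝓞 K)) →
      θ (ClassGroup.mk0 P) = 1 := fun P hP =>
    hθH _ (Subgroup.mem_sup_left (Subgroup.subset_closure ⟨P, hP, rfl⟩))
  obtain ⟨C1, hC1⟩ := Gen.sum_le_of_char K θ hθ1 hθp
  obtain ⟨C4, hC4⟩ := exists_finset_degreeOne_primes_sum_ge K p hp.ne_zero
  obtain ⟨C5, hC5⟩ := kummer_split_primes_sum_le K ζ hζ u hu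
  -- choose `s` close to `1`
  obtain ⟨s, hs1, hs2, hlog0, hlog⟩ : ∃ s : ℝ, 1 < s ∧ s ≤ 2 ∧ 0 < Real.log (1 / (s - 1)) ∧
      (p : ℝ) * C4 + C5 + C1 < Real.log (1 / (s - 1)) := by
    set B : ℝ := (p : ℝ) * C4 + C5 + C1 with hB
    have h1 : 1 + Real.exp (-(|B| + 1)) - 1 = Real.exp (-(|B| + 1)) := by ring
    refine ⟨1 + Real.exp (-(|B| + 1)), ?_, ?_, ?_, ?_⟩
    · have := Real.exp_pos (-(|B| + 1)); linarith
    · have : Real.exp (-(|B| + 1)) ≤ 1 :=
        Real.exp_le_one_iff.mpr (by have := abs_nonneg B; linarith)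
      linarith
    · rw [h1, one_div, ← Real.exp_neg, Real.log_exp]
      have := abs_nonneg B
      linarith
    · rw [h1, one_div, ← Real.exp_neg, Real.log_exp]
      have := le_abs_self B
      linarith
  obtain ⟨T, hT, hTsum⟩ := hC4 s hs1 hs2
  -- split `T` into the primes modulo which `u` is a `p`-th power, and the good primes
  have hsplit := Finset.sum_filter_add_sum_filter_not T (fun P => ∃ x : 𝓞 K, x ^ p - u ∈ P)
    (fun P => ((Ideal.absNorm P : ℝ)) ^ (-s))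
  have ha : (p : ℝ) * ∑ P ∈ T.filter (fun P => ∃ x : 𝓞 K, x ^ p - u ∈ P),
      ((Ideal.absNorm P : ℝ)) ^ (-s) ≤ Real.log (1 / (s - 1)) + C5 := by
    refine hC5 s hs1 hs2 _ fun P hP => ?_
    rw [Finset.mem_filter] at hP
    exact ⟨(hT P hP.1).1, (hT P hP.1).2.1, (hT P hP.1).2.2, hP.2⟩
  have hb : (p : ℝ) * ∑ P ∈ T.filter (fun P => ¬ ∃ x : 𝓞 K, x ^ p - u ∈ P),
      ((Ideal.absNorm P : ℝ)) ^ (-s) ≤ Real.log (1 / (s - 1)) + C1 := by
    set Tb := T.filter (fun P => ¬ ∃ x : 𝓞 K, x ^ p - u ∈ P) with hTb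
    have hprop : ∀ P ∈ Tb, IsGoodPrime K p u P := by
      intro P hP
      rw [hTb, Finset.mem_filter] at hP
      exact ⟨(hT P hP.1).1, (hT P hP.1).2.1, (hT P hP.1).2.2, hP.2⟩
    have hbot : ∀ P ∈ Tb, P ≠ ⊥ := by
      intro P hP h
      have := (hprop P hP).2.1
      rw [h, Ideal.absNorm_bot] at this
      exact Nat.not_prime_zero this
    let emb : {P // P ∈ Tb} ↪ IsDedekindDomain.HeightOneSpectrum (𝓞 K) :=
      ⟨fun P => ⟨P.1, (hprop P.1 P.2).1, hbot P.1 P.2⟩, fun P Q h => by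
        have := congrArg IsDedekindDomain.HeightOneSpectrum.asIdeal h
        exact Subtype.ext this⟩
    have h1 := hC1 s hs1 hs2 (Tb.attach.map emb) (by
      intro v hv
      obtain ⟨P, -, rfl⟩ := Finset.mem_map.mp hv
      exact hgood (primeNZD K (emb P)) (hprop P.1 P.2))
    rw [Finset.sum_map] at h1
    have h2 : ∑ P ∈ Tb.attach, ((Ideal.absNorm (emb P).asIdeal : ℝ)) ^ (-s) =
        ∑ P ∈ Tb, ((Ideal.absNorm P : ℝ)) ^ (-s) :=
      Finset.sum_attach Tb (fun P => ((Ideal.absNorm P : ℝ)) ^ (-s))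
    rw [h2] at h1
    exact h1
  -- combine
  have hp3' : (3 : ℝ) ≤ (p : ℝ) := by exact_mod_cast hp3
  set Lg := Real.log (1 / (s - 1)) with hLg
  have h1 : (p : ℝ) * (Lg - C4) ≤ 2 * Lg + C5 + C1 := by
    calc (p : ℝ) * (Lg - C4) ≤ (p : ℝ) * ∑ P ∈ T, ((Ideal.absNorm P : ℝ)) ^ (-s) :=
          mul_le_mul_of_nonneg_left hTsum (by linarith)
      _ = (p : ℝ) * ∑ P ∈ T.filter (fun P => ∃ x : 𝓞 K, x ^ p - u ∈ P),
            ((Ideal.absNorm P : ℝ)) ^ (-s) +
          (p : ℝ) * ∑ P ∈ T.filter (fun P => ¬ ∃ x : 𝓞 K, x ^ p - u ∈ P),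
            ((Ideal.absNorm P : ℝ)) ^ (-s) := by rw [← hsplit, mul_add]
      _ ≤ 2 * Lg + C5 + C1 := by linarith
  have h2 : 0 ≤ ((p : ℝ) - 3) * Lg := mul_nonneg (by linarith) hlog0.le
  linarith

end Fermat.Agent.S14.Thaine
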