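import Fermat.Agent.S14.Thaine.Defs
import Fermat.Agent.S14.Thaine.Kummer.Gen
import Fermat.Agent.S14.Thaine.Kummer.Twist
import Fermat.Agent.S14.Thaine.Kummer.Local

/-!
# Route T interface `Kummer` (statement FROZEN by helper13; body owned by helper8)

Kummer extraction from a `TwistedExt`: `L = K(B)`, `B ^ p = β ∈ K`, and
* `β` is not a `p`-th power in `K` (as `[L:K] = p`);
* (H2) `σ β = β ^ (a²) * γ ^ p` if `σ ζ = ζ ^ a` (from `twist`; exponent `sqExp p K σ = a² mod p`);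
* (H1) every `v`-adic valuation of `β` is divisible by `p` (from `unramified`, resp. (H3));
* (H3) at the prime `v` above `p`: `β * x ^ p ≡ 1 mod v³` for some `x ∈ K` (from `split`).
-/

set_option autoImplicit false

namespace Fermat.Agent.S14.Thaine

open NumberField IsDedekindDomain

theorem exists_kummer_data {p : ℕ} [Fact p.Prime] (hp3 : 3 ≤ p)
    (K L : Type) [Field K] [NumberField K] [Field L] [NumberField L] [Algebra K L]
    [IsCyclotomicExtension {p} ℚ K] [IsGalois ℚ L] [IsGalois K L] (h : TwistedExt p K L) :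
    ∃ β : K, β ≠ 0 ∧ (¬ ∃ γ : K, β = γ ^ p) ∧
      (∀ σ : K ≃ₐ[ℚ] K, ∃ γ : K, σ β = β ^ sqExp p K σ * γ ^ p) ∧
      (∀ v : HeightOneSpectrum (𝓞 K), ∃ k : ℤ, v.valuation K β = WithZero.exp ((p : ℤ) * k)) ∧
      (∀ v : HeightOneSpectrum (𝓞 K), ((p : ℕ) : 𝓞 K) ∈ v.asIdeal →
        ∃ x : K, v.valuation K (β * x ^ p - 1) ≤ WithZero.exp (-3 : ℤ)) := by
  have _ := hp3
  obtain ⟨B, b, hb, hB⟩ := Kummer.exists_generator (p := p) K L h.finrank_eq
  have hζ := IsCyclotomicExtension.zeta_spec p ℚ K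
  have hb' : algebraMap K L (b : K) = (B : L) ^ p := by
    have h1 : algebraMap (𝓞 L) L (algebraMap (𝓞 K) (𝓞 L) b) = algebraMap (𝓞 L) L (B ^ p) := by
      rw [hb]
    rw [← IsScalarTower.algebraMap_apply, IsScalarTower.algebraMap_apply (𝓞 K) K L, map_pow] at h1
    exact h1
  have hBL0 : (B : L) ≠ 0 := by
    intro h0
    exact hB ⟨0, by rw [h0, map_zero]⟩
  have hB0 : B ≠ 0 := by
    intro h0
    exact hBL0 (by rw [h0]; rfl)
  obtain ⟨hβ0, hβp⟩ := Kummer.not_pow (p := p) _ hζ (B : L) (b : K) hb' hB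
  refine ⟨(b : K), hβ0, hβp, ?_, ?_, ?_⟩
  · intro σ
    exact Kummer.twist_rel K L h (B : L) hBL0 (b : K) hb' σ
  · intro v
    exact Kummer.val_eq_exp_mul h (B : L) hBL0 (b : K) hb' v
  · intro v hv
    exact Kummer.exists_local_pow h B hB0 b hb v hv

end Fermat.Agent.S14.Thaine
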