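import Fermat.Agent.S14.Thaine.Defs
import Fermat.Agent.S14.Thaine.Rel.Witness

/-!
# Route T interface `RelField` (statement FROZEN by helper13; body owned by helper14)

The "field side" of Thaine's relation.  `K = ℚ(ζ_p)`, `ℓ ≡ 1 mod p` a prime, `M = K(ζ_ℓ)`,
`τ` a generator of `Gal(M/K)`, `τ ζ_ℓ = ζ_ℓ ^ g`.  The unit
`ξ = ∏_{0<j<p} (1 - ζ^j ζ_ℓ) ^ e_j` (`e_j` the exponents of `thaineU`) has `N_{M/K} ξ = 1`, so by
Hilbert 90 `ξ = τ γ / γ` with `γ ∈ 𝓞_M`, `γ ≠ 0`.  Put `c = N_{M/K} γ ∈ 𝓞 K`.  Then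
* `c = γ^(ℓ-1) · unit`, so at every prime `v ∌ ℓ` of `K` (unramified in `M`):
  `ord_v c = (ℓ-1) · ord_𝔔 γ ≡ 0 mod p`;
* at `v ∋ ℓ` (totally ramified in `M`, `𝔏` the prime above, `1 - ζ_ℓ` a uniformizer at `𝔏`):
  `ord_v c = ord_𝔏 γ =: n` and `u ≡ ξ = τγ/γ ≡ ((1-ζ_ℓ^g)/(1-ζ_ℓ))^n ≡ g^n mod 𝔏`.
-/

set_option autoImplicit false

namespace Fermat.Agent.S14.Thaine

open NumberField IsDedekindDomain

theorem exists_thaine_element {p : ℕ} [Fact p.Prime] (hp3 : 3 ≤ p)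
    (K : Type*) [Field K] [NumberField K] [IsCyclotomicExtension {p} ℚ K]
    (ℓ : ℕ) (hℓ : ℓ.Prime) (hℓp : ℓ ≠ p) (hℓ1 : ℓ % p = 1) :
    ∃ (c : 𝓞 K) (g : ℤ), c ≠ 0 ∧
      (∀ v : HeightOneSpectrum (𝓞 K), ((ℓ : ℕ) : 𝓞 K) ∉ v.asIdeal →
        ∃ k : ℕ, v.intValuation c = WithZero.exp (-((p : ℤ) * (k : ℤ)))) ∧
      (∀ v : HeightOneSpectrum (𝓞 K), ((ℓ : ℕ) : 𝓞 K) ∈ v.asIdeal →
        ∃ n : ℕ, v.intValuation c = WithZero.exp (-(n : ℤ)) ∧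
          thaineU p K - (g : 𝓞 K) ^ n ∈ v.asIdeal) := by
  classical
  have : Fact ℓ.Prime := ⟨hℓ⟩
  have hdvd : p ∣ ℓ - 1 := by
    have h := Nat.dvd_sub_mod (n := p) ℓ
    rwa [hℓ1] at h
  obtain ⟨b, g, hb, hg, h1, h2⟩ := Rel.exists_witness (p := p) K ℓ hℓp hdvd
  obtain ⟨m, -, hm⟩ := Nat.exists_mul_mod_eq_one_of_coprime hg hℓ.one_lt
  have hgm : (g : 𝓞 K) * (m : 𝓞 K) = ((ℓ : ℕ) : 𝓞 K) * ((g * m / ℓ : ℕ) : 𝓞 K) + 1 := by
    have h := Nat.div_add_mod (g * m) ℓ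
    rw [hm] at h
    exact_mod_cast h.symm
  have hbspan : Ideal.span {b} ≠ (0 : Ideal (𝓞 K)) := by
    rw [Ne, Ideal.zero_eq_bot, Ideal.span_singleton_eq_bot]
    exact hb
  have hval : ∀ v : HeightOneSpectrum (𝓞 K), v.intValuation b = WithZero.exp
      (-(Multiset.count v.asIdeal
        (UniqueFactorizationMonoid.normalizedFactors (Ideal.span {b})) : ℤ)) := by
    intro v
    rw [v.intValuation_if_neg hb, Ideal.count_associates_factors_eq hbspan v.isPrime v.ne_bot]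
  refine ⟨b, (m : ℤ), hb, ?_, ?_⟩
  · intro v hv
    obtain ⟨k, hk⟩ := h1 v.asIdeal v.isPrime v.ne_bot hv
    refine ⟨k, ?_⟩
    rw [hval v, hk]
    push_cast
    rfl
  · intro v hv
    refine ⟨_, hval v, ?_⟩
    set n := Multiset.count v.asIdeal
      (UniqueFactorizationMonoid.normalizedFactors (Ideal.span {b})) with hn
    have h3 := h2 v.asIdeal v.isPrime hv
    rw [← hn] at h3
    have h4 : (g : 𝓞 K) * (m : 𝓞 K) - 1 ∈ v.asIdeal := by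
      rw [hgm, add_sub_cancel_right]
      exact v.asIdeal.mul_mem_right _ hv
    have h5 : ((g : 𝓞 K) * (m : 𝓞 K)) ^ n - 1 ∈ v.asIdeal := by
      have h6 : (g : 𝓞 K) * (m : 𝓞 K) - 1 ∣ ((g : 𝓞 K) * (m : 𝓞 K)) ^ n - 1 ^ n :=
        sub_dvd_pow_sub_pow _ _ _
      rw [one_pow] at h6
      obtain ⟨c, hc⟩ := h6
      rw [hc]
      exact v.asIdeal.mul_mem_right _ h4
    have h7 : thaineU p K - (((m : ℤ) : 𝓞 K)) ^ n =
        ((g : 𝓞 K) ^ n * thaineU p K - 1) * (m : 𝓞 K) ^ n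
          - thaineU p K * (((g : 𝓞 K) * (m : 𝓞 K)) ^ n - 1) := by
      push_cast
      ring
    rw [h7]
    exact v.asIdeal.sub_mem (v.asIdeal.mul_mem_right _ h3) (v.asIdeal.mul_mem_left _ h5)

end Fermat.Agent.S14.Thaine
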