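import Fermat.Agent.S14.Thaine.Defs
import Fermat.Agent.S14.Thaine.Iface.RelField
import Fermat.Agent.S14.Thaine.RelClass.Arith
import Fermat.Agent.S14.Thaine.RelClass.Trans
import Fermat.Agent.S14.Thaine.RelClass.Inj
import Fermat.Agent.S14.Thaine.RelClass.Local
import Fermat.Agent.S14.Thaine.RelClass.Factor

/-!
# Route T interface `Relation` (statement FROZEN by helper13; body owned by helper9)

Thaine's relation: for a good prime `P` (for `thaineU`), `𝐄 [P]` is a `p`-th power in the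
class group of `K = ℚ(ζ_p)`.

Proof (class side): `ℓ = N P` is a prime `≡ 1 mod p`; take `c, g` from the field side
(`exists_thaine_element`).  The primes above `ℓ` are the pairwise distinct conjugates `σ⁻¹ P`
(`RelClass.exists_conjPrime_eq`, `RelClass.conjPrime_injective`), so the factorisation of `(c)`
gives `∏_σ [σ⁻¹ P] ^ n_σ ∈ Cl ^ p` (`RelClass.prod_mk0_pow_mem_range`), and the local congruence
`n_σ ≡ sqExp σ * n_1 mod p`, `p ∤ n_1` (`RelClass.local_modEq`, `RelClass.local_not_dvd`) turns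
this into `(𝐄 [P]) ^ n_1 ∈ Cl ^ p`, hence `𝐄 [P] ∈ Cl ^ p`.
-/

set_option autoImplicit false

namespace Fermat.Agent.S14.Thaine

open NumberField
open scoped nonZeroDivisors

theorem thaine_relation {p : ℕ} [Fact p.Prime] (hp3 : 3 ≤ p)
    (K : Type*) [Field K] [NumberField K] [IsCyclotomicExtension {p} ℚ K]
    (P : (Ideal (𝓞 K))⁰) (hP : IsGoodPrime K p (thaineU p K) (P : Ideal (𝓞 K))) :
    EOp p K (ClassGroup.mk0 P) ∈
      (powMonoidHom p : ClassGroup (𝓞 K) →* ClassGroup (𝓞 K)).range := by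
  classical
  have hpr : p.Prime := Fact.out
  have hPprime : (P : Ideal (𝓞 K)).IsPrime := hP.1
  have hℓ : (Ideal.absNorm (P : Ideal (𝓞 K))).Prime := hP.2.1
  have hpP : ((p : ℕ) : 𝓞 K) ∉ (P : Ideal (𝓞 K)) := hP.2.2.1
  have hgal : IsGalois ℚ K := IsCyclotomicExtension.isGalois {p} ℚ K
  have hℓP : ((Ideal.absNorm (P : Ideal (𝓞 K)) : ℕ) : 𝓞 K) ∈ (P : Ideal (𝓞 K)) :=
    Ideal.absNorm_mem _
  obtain ⟨c, g, hc, hout, hin⟩ := exists_thaine_element hp3 K _ hℓ
    (RelClass.absNorm_ne_prime K _ hpP) (RelClass.absNorm_mod_prime K _ hPprime hℓ hpP)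
  choose! n hn using hin
  -- the primes above `ℓ`
  set w : (K ≃ₐ[ℚ] K) → IsDedekindDomain.HeightOneSpectrum (𝓞 K) :=
    RelClass.conjPrime K P hPprime with hw
  have hwmem : ∀ σ, ((Ideal.absNorm (P : Ideal (𝓞 K)) : ℕ) : 𝓞 K) ∈ (w σ).asIdeal :=
    fun σ => RelClass.natCast_mem_conjPrime K P hPprime _ hℓP σ
  have hwinj : Function.Injective w := RelClass.conjPrime_injective K P hPprime hℓ hpP
  have key := RelClass.prod_mk0_pow_mem_range K p hpr.pos c hc (Finset.univ.image w) n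
    (fun v hv => by
      obtain ⟨σ, -, rfl⟩ := Finset.mem_image.mp hv
      exact (hn _ (hwmem σ)).1)
    (fun v hv => hout v (fun hmem => by
      obtain ⟨σ, rfl⟩ := RelClass.exists_conjPrime_eq K P hPprime _ hℓ hℓP v hmem
      exact hv (Finset.mem_image_of_mem _ (Finset.mem_univ σ))))
  rw [Finset.prod_image (fun σ _ τ _ h => hwinj h)] at key
  -- the exponent at `P` itself
  set vP : IsDedekindDomain.HeightOneSpectrum (𝓞 K) :=
    ⟨(P : Ideal (𝓞 K)), hPprime, nonZeroDivisors.coe_ne_zero P⟩ with hvP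
  have hnP : thaineU p K - (g : 𝓞 K) ^ n vP ∈ (P : Ideal (𝓞 K)) := (hn vP hℓP).2
  have hnd : ¬ p ∣ n vP := RelClass.local_not_dvd K P hP g (n vP) hnP
  have hmod : ∀ σ : K ≃ₐ[ℚ] K, n (w σ) ≡ sqExp p K σ * n vP [MOD p] := fun σ =>
    RelClass.local_modEq K P hP g σ (n vP) (n (w σ)) hnP (hn _ (hwmem σ)).2
  have hcl : ∀ σ : K ≃ₐ[ℚ] K, ClassGroup.mk0 (primeNZD K (w σ)) =
      clSigma K σ⁻¹ (ClassGroup.mk0 P) := fun σ => by
    rw [clSigma_mk0, hw, RelClass.primeNZD_conjPrime]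
  have hE : EOp p K (ClassGroup.mk0 P) ^ n vP =
      ∏ σ : K ≃ₐ[ℚ] K, ClassGroup.mk0 (primeNZD K (w σ)) ^ (sqExp p K σ * n vP) := by
    unfold EOp
    rw [MonoidHom.finsetProd_apply, ← Finset.prod_pow]
    refine Finset.prod_congr rfl fun σ _ => ?_
    rw [hcl σ, pow_mul]
    rfl
  refine RelClass.mem_range_pow_of_pow_mem p hpr _ (n vP) hnd ?_
  rw [hE]
  exact RelClass.prod_pow_mem_range_of_modEq p Finset.univ _ _ _ (fun σ _ => hmod σ) key

end Fermat.Agent.S14.Thaine
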