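import Fermat.Agent.S14.Thaine.Defs
import Fermat.Agent.S14.Thaine.Units.Step
import Fermat.Agent.S14.Thaine.Units.Three

/-!
# Route T interface `Units` (statements FROZEN by helper13; bodies owned by helper14)

`K = ℚ(ζ_p)`.
* `thaineU_not_pow` (`p ≥ 5`): Thaine's `p`-unit `u` is not a `p`-th power in `K`
  (`u = π^{pm} u'`, `u' ≡ c₀ (1 - π²/24) mod π³`).
* `unit_step` (`p ≥ 3`): a unit in the `ω²`-eigenspace modulo `p`-th powers of units which is
  congruent to a rational integer modulo `𝔭³` (`𝔭` the prime above `p`) is a `p`-th power of a unit.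

STATUS (helper276, 03:00 UTC): both theorems are fully proved via `Thaine/Units/*.lean`
(axioms: propext, Classical.choice, Quot.sound only).
-/

set_option autoImplicit false

namespace Fermat.Agent.S14.Thaine

open NumberField

theorem thaineU_not_pow {p : ℕ} [Fact p.Prime] (hp5 : 5 ≤ p)
    (K : Type*) [Field K] [NumberField K] [IsCyclotomicExtension {p} ℚ K] :
    ¬ ∃ x : K, ((thaineU p K : 𝓞 K) : K) = x ^ p :=
  Units.thaineU_not_pow_aux p K hp5

theorem unit_step {p : ℕ} [Fact p.Prime] (hp3 : 3 ≤ p)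
    (K : Type*) [Field K] [NumberField K] [IsCyclotomicExtension {p} ℚ K]
    (𝔭 : Ideal (𝓞 K)) (h𝔭 : 𝔭.IsPrime) (hp𝔭 : ((p : ℕ) : 𝓞 K) ∈ 𝔭)
    (ε : (𝓞 K)ˣ)
    (heig : ∀ σ : K ≃ₐ[ℚ] K, ∃ w : (𝓞 K)ˣ,
      σ ((ε : 𝓞 K) : K) = ((ε : 𝓞 K) : K) ^ sqExp p K σ * ((w : 𝓞 K) : K) ^ p)
    (hloc : ∃ n : ℤ, ((ε : 𝓞 K) - (n : 𝓞 K)) ∈ 𝔭 ^ 3) :
    ∃ w : (𝓞 K)ˣ, ε = w ^ p := by
  by_cases hp : p = 3
  · exact Units.unit_step_three hp K ε heig
  · have hp5 : 5 ≤ p := by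
      have hprime : p.Prime := Fact.out
      by_contra hlt
      have h4 : p = 4 := by omega
      rw [h4] at hprime
      exact absurd hprime (by decide)
    exact Units.unit_step_five p K hp5 𝔭 h𝔭 hp𝔭 ε heig hloc

end Fermat.Agent.S14.Thaine
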